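import Fermat.Agent.Lib.CFT.Global.Places.OrdAt
import Fermat.Agent.Lib.CFT.Global.LocalFieldAt
import Fermat.Agent.Lib.CFT.Global.Places.GaloisLocalField

/-!
# The local dictionary for valuations ((GI-4)(d))

For a prime `w` of the number field `L` above `q` and `m := primesEquivMaximalSpectrum L q w`,
the local field `FieldAt L q m = (ℚ_q ⊗ L) ⧸ m` of `Global/LocalFieldAt.lean` is (definitionally)
the local field `localField L q w` of `Global/Places/LocalField.lean`, the fraction field of the
complete discrete valuation ring `localInt L q w`.  We record:

* `ord_ofField`, `ord_toFieldAt`: on `Lˣ`, the normalised valuation `UnitsFiltration.ord` of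
  `localInt L q w` is the `w`-adic valuation `SUnits.ordAt w.1`;
* `ord_unitsProj`, `ord_redUnits`: on `(ℚ_q ⊗ L)ˣ` it is `Places.ordAt w`;
* `ord_stab_smul`, `ord_stab_smul_fieldAt`: it is invariant under the decomposition group.
-/

set_option autoImplicit false

open scoped TensorProduct NumberField Pointwise

noncomputable section

namespace Fermat.Agent.Lib.CFT.Global.LocalDict

open Fermat.Agent.Lib.CFT.Global Fermat.Agent.Lib.CFT.Global.Places
  Fermat.Agent.Lib.CFT.Global.Places.Galois Fermat.Agent.Lib.CFT.Global.LocalFieldAt
  Fermat.Agent.Lib.CFT.Global.EtaleAlg Fermat.Agent.Lib.CFT.Local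

attribute [local instance] Units.mulDistribMulActionRight

variable {L : Type} [Field L] [NumberField L] {q : Nat.Primes}

/-! ## On `localField L q w` -/

/-- On `Lˣ`, the normalised valuation of the local field at `w` is the `w`-adic valuation. -/
theorem ord_ofField (w : PrimesOver L q) (x : Lˣ) :
    UnitsFiltration.ord (localInt L q w) (localField L q w)
      (Units.map (ofField L q w : L →* localField L q w) x) = SUnits.ordAt w.1 x := by
  rw [← unitsProj_locUnit, ← toAdd_ordAt_locUnit, ordAt_apply, toAdd_ofAdd]

/-- On `(ℚ_q ⊗ L)ˣ`, the normalised valuation of the local field at `w` is `ordAt w`. -/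
theorem ord_unitsProj (w : PrimesOver L q) (u : (LocAlg L q)ˣ) :
    UnitsFiltration.ord (localInt L q w) (localField L q w) (unitsProj L q w u) =
      Multiplicative.toAdd (ordAt w u) := by
  rw [ordAt_apply, toAdd_ofAdd]

/-- The normalised valuation of `L_w` is invariant under the decomposition group (computed in
`𝓞 L`): value form, usable with any action on the units whose underlying element is `g • y`. -/
theorem ord_eq_of_eq_stab_smul {G : Type} [Group G] [MulSemiringAction G L] (w : PrimesOver L q)
    (g : MulAction.stabilizer G w.1.asIdeal) (y z : (localField L q w)ˣ)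
    (hz : (z : localField L q w) = g • (y : localField L q w)) :
    UnitsFiltration.ord (localInt L q w) (localField L q w) z =
      UnitsFiltration.ord (localInt L q w) (localField L q w) y := by
  have h := UnitsFiltration.ord_map
    (MulSemiringAction.toRingEquiv (MulAction.stabilizer G w.1.asIdeal) (localInt L q w) g)
    (MulSemiringAction.toRingEquiv (MulAction.stabilizer G w.1.asIdeal) (localField L q w) g)
    (fun b => by
      rw [algebraMap_localInt_localField, algebraMap_localInt_localField]
      exact stab_smul_toLocalField w g b) y
  rw [← h]
  congr 1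
  exact Units.ext hz

/-! ## On `FieldAt L q (primesEquivMaximalSpectrum L q w)` -/

/-- `FieldAt L q (primesEquivMaximalSpectrum L q w)` is definitionally `localField L q w`; this is
its structure of algebra over the complete discrete valuation ring `localInt L q w`. -/
@[reducible] def localIntFieldAtAlgebra (w : PrimesOver L q) :
    Algebra (localInt L q w) (FieldAt L q (primesEquivMaximalSpectrum L q w)) :=
  (inferInstance : Algebra (localInt L q w) (localField L q w))

theorem isFractionRing_localInt_fieldAt (w : PrimesOver L q) :
    letI := localIntFieldAtAlgebra w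
    IsFractionRing (localInt L q w) (FieldAt L q (primesEquivMaximalSpectrum L q w)) :=
  (inferInstance : IsFractionRing (localInt L q w) (localField L q w))

/-- On `Lˣ`, the normalised valuation of `FieldAt L q m`, `m` the maximal ideal of `w`, is the
`w`-adic valuation. -/
theorem ord_toFieldAt (w : PrimesOver L q) (x : Lˣ) :
    letI := localIntFieldAtAlgebra w
    haveI := isFractionRing_localInt_fieldAt w
    UnitsFiltration.ord (localInt L q w) (FieldAt L q (primesEquivMaximalSpectrum L q w))
      (Units.map (toFieldAt L q (primesEquivMaximalSpectrum L q w) :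
        L →* FieldAt L q (primesEquivMaximalSpectrum L q w)) x) = SUnits.ordAt w.1 x :=
  ord_ofField w x

/-- On `(ℚ_q ⊗ L)ˣ`, the normalised valuation of `FieldAt L q m` is `ordAt w`. -/
theorem ord_redUnits (w : PrimesOver L q) (u : (LocAlg L q)ˣ) :
    letI := localIntFieldAtAlgebra w
    haveI := isFractionRing_localInt_fieldAt w
    UnitsFiltration.ord (localInt L q w) (FieldAt L q (primesEquivMaximalSpectrum L q w))
      (redUnits (primesEquivMaximalSpectrum L q w) u) = Multiplicative.toAdd (ordAt w u) :=
  ord_unitsProj w u

/-- The normalised valuation of `FieldAt L q m` is invariant under the decomposition group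
`MulAction.stabilizer G m` (value form). -/
theorem ord_eq_of_eq_stab_smul_fieldAt {G : Type} [Group G] [MulSemiringAction G L]
    (w : PrimesOver L q) (g : MulAction.stabilizer G (primesEquivMaximalSpectrum L q w))
    (y z : (FieldAt L q (primesEquivMaximalSpectrum L q w))ˣ)
    (hz : (z : FieldAt L q (primesEquivMaximalSpectrum L q w)) =
      g • (y : FieldAt L q (primesEquivMaximalSpectrum L q w))) :
    letI := localIntFieldAtAlgebra w
    haveI := isFractionRing_localInt_fieldAt w
    UnitsFiltration.ord (localInt L q w) (FieldAt L q (primesEquivMaximalSpectrum L q w)) z =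
      UnitsFiltration.ord (localInt L q w) (FieldAt L q (primesEquivMaximalSpectrum L q w)) y :=
  ord_eq_of_eq_stab_smul w ⟨g.1, (mem_stabilizer_primesEquiv_iff' q g.1 w).mp g.2⟩ y z hz

/-- The normalised valuation of `FieldAt L q m` is invariant under the decomposition group
`MulAction.stabilizer G m` acting on the units. -/
theorem ord_stab_smul_fieldAt {G : Type} [Group G] [MulSemiringAction G L]
    (w : PrimesOver L q) (g : MulAction.stabilizer G (primesEquivMaximalSpectrum L q w))
    (y : (FieldAt L q (primesEquivMaximalSpectrum L q w))ˣ) :
    letI := localIntFieldAtAlgebra w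
    haveI := isFractionRing_localInt_fieldAt w
    UnitsFiltration.ord (localInt L q w) (FieldAt L q (primesEquivMaximalSpectrum L q w))
        (g • y) =
      UnitsFiltration.ord (localInt L q w) (FieldAt L q (primesEquivMaximalSpectrum L q w)) y :=
  ord_eq_of_eq_stab_smul_fieldAt w g y (g • y) rfl

/-! ## Instance-generic versions

The same statements for an arbitrary `Algebra (localInt L q w) (FieldAt L q m)` instance whose
`algebraMap` is `toLocalField L q w` (so that they can be used by `rw` whatever the syntactic form
of the instance, e.g. `inferInstanceAs …`). -/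

section Generic

variable (w : PrimesOver L q)
  [Algebra (localInt L q w) (FieldAt L q (primesEquivMaximalSpectrum L q w))]
  [IsFractionRing (localInt L q w) (FieldAt L q (primesEquivMaximalSpectrum L q w))]

/-- `UnitsFiltration.ord` only depends on the `algebraMap`. -/
theorem ord_fieldAt_eq_ord_localField
    (h : ∀ b : localInt L q w,
      algebraMap (localInt L q w) (FieldAt L q (primesEquivMaximalSpectrum L q w)) b =
        toLocalField L q w b)
    (y : (FieldAt L q (primesEquivMaximalSpectrum L q w))ˣ) :
    UnitsFiltration.ord (localInt L q w) (FieldAt L q (primesEquivMaximalSpectrum L q w)) y =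
      UnitsFiltration.ord (localInt L q w) (localField L q w) y := by
  have h1 := UnitsFiltration.ord_map (B := localInt L q w) (L := localField L q w)
    (B' := localInt L q w) (L' := FieldAt L q (primesEquivMaximalSpectrum L q w))
    (RingEquiv.refl (localInt L q w)) (RingEquiv.refl (localField L q w))
    (fun b => (h b).symm) y
  rw [← h1]
  congr 1

theorem ord_toFieldAt_of
    (h : ∀ b : localInt L q w,
      algebraMap (localInt L q w) (FieldAt L q (primesEquivMaximalSpectrum L q w)) b =
        toLocalField L q w b) (x : Lˣ) :
    UnitsFiltration.ord (localInt L q w) (FieldAt L q (primesEquivMaximalSpectrum L q w))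
      (Units.map (toFieldAt L q (primesEquivMaximalSpectrum L q w) :
        L →* FieldAt L q (primesEquivMaximalSpectrum L q w)) x) = SUnits.ordAt w.1 x :=
  (ord_fieldAt_eq_ord_localField w h _).trans (ord_ofField w x)

theorem ord_redUnits_of
    (h : ∀ b : localInt L q w,
      algebraMap (localInt L q w) (FieldAt L q (primesEquivMaximalSpectrum L q w)) b =
        toLocalField L q w b) (u : (LocAlg L q)ˣ) :
    UnitsFiltration.ord (localInt L q w) (FieldAt L q (primesEquivMaximalSpectrum L q w))
      (redUnits (primesEquivMaximalSpectrum L q w) u) = Multiplicative.toAdd (ordAt w u) :=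
  (ord_fieldAt_eq_ord_localField w h _).trans (ord_unitsProj w u)

theorem ord_stab_smul_fieldAt_of {G : Type} [Group G] [MulSemiringAction G L]
    (h : ∀ b : localInt L q w,
      algebraMap (localInt L q w) (FieldAt L q (primesEquivMaximalSpectrum L q w)) b =
        toLocalField L q w b)
    (g : MulAction.stabilizer G (primesEquivMaximalSpectrum L q w))
    (y : (FieldAt L q (primesEquivMaximalSpectrum L q w))ˣ) :
    UnitsFiltration.ord (localInt L q w) (FieldAt L q (primesEquivMaximalSpectrum L q w))
        (g • y) =
      UnitsFiltration.ord (localInt L q w) (FieldAt L q (primesEquivMaximalSpectrum L q w)) y := by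
  rw [ord_fieldAt_eq_ord_localField w h, ord_fieldAt_eq_ord_localField w h]
  exact ord_stab_smul_fieldAt w g y

end Generic

end Fermat.Agent.Lib.CFT.Global.LocalDict
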