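import Mathlib
import Fermat.Agent.Lib.CFT.Global.Places.UnramLocalInt
import Fermat.Agent.Lib.CFT.Local.UnramifiedCore
import Fermat.Agent.Lib.CFT.Global.GaloisTransport

/-!
# Local dictionary (GI-4, part (c)): the Frobenius of an unramified local layer

`L / K` number fields, `G` a finite Galois group of `L / K`, `w` a prime of `𝓞 L` above the
rational prime `q`, lying over the prime `v` of `𝓞 K`.  The local layer at `w` is presented by
`A := localInt K q v ⊆ B := localInt L q w` inside `K_v := localField K q v ⊆ F := localField L q w`
(with the algebra structures of `Places/GaloisDecomp`, `Places/GaloisLocalField`), and the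
decomposition group `D_w` is a Galois group of `F / K_v`.
-/

set_option autoImplicit false
set_option linter.unusedSectionVars false

open scoped NumberField Pointwise

noncomputable section

namespace Fermat.Agent.Lib.CFT.Global.LocalDict

open Fermat.Agent.Lib.CFT.Global Fermat.Agent.Lib.CFT.Global.Places
  Fermat.Agent.Lib.CFT.Global.Places.Galois IsDedekindDomain IsLocalRing
  Fermat.Agent.Lib.CFT.Local.Unramified Fermat.Agent.Lib.CFT.Global.LocalFieldAt

set_option linter.style.haveILetI false

section Presentation

variable {K L : Type} [Field K] [NumberField K] [Field L] [NumberField L] [Algebra K L]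
  {q : Nat.Primes} {v : PrimesOver K q} {w : PrimesOver L q}
  (hvw : LiesOverAlong (algebraMap (𝓞 K) (𝓞 L)) v w)

/-- The structure of `localInt K q v`-algebra on the local field `localField L q w`, through
`localField K q v`. -/
@[reducible] def localIntFieldAlgebra : Algebra (localInt K q v) (localField L q w) :=
  letI := localFieldAlgebra hvw
  ((algebraMap (localField K q v) (localField L q w)).comp
    (algebraMap (localInt K q v) (localField K q v))).toAlgebra

theorem isScalarTower_localInt_localField_localField :
    letI := localFieldAlgebra hvw
    letI := localIntFieldAlgebra hvw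
    IsScalarTower (localInt K q v) (localField K q v) (localField L q w) := by
  letI := localFieldAlgebra hvw
  letI := localIntFieldAlgebra hvw
  exact IsScalarTower.of_algebraMap_eq (fun _ => rfl)

theorem isScalarTower_localInt_localInt_localField :
    letI := localIntAlgebra hvw
    letI := localIntFieldAlgebra hvw
    IsScalarTower (localInt K q v) (localInt L q w) (localField L q w) := by
  letI := localIntAlgebra hvw
  letI := localIntFieldAlgebra hvw
  exact IsScalarTower.of_algebraMap_eq (fun a => localFieldBaseMap_toLocalField hvw a)

theorem isLocalHom_localInt :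
    letI := localIntAlgebra hvw
    IsLocalHom (algebraMap (localInt K q v) (localInt L q w)) :=
  isLocalHom_localIntMap (algebraMap (𝓞 K) (𝓞 L)) hvw

instance henselianLocalRing_localInt (u : PrimesOver L q) :
    HenselianLocalRing (localInt L q u) where
  is_henselian f hf a₀ h₁ h₂ :=
    HenselianRing.is_henselian (I := maximalIdeal (localInt L q u)) f hf a₀ h₁
      (h₂.map (Ideal.Quotient.mk (maximalIdeal (localInt L q u))))

section Galois

variable {G : Type} [Group G] [Finite G] [MulSemiringAction G L] [IsGaloisGroup G K L]

include G in
theorem isIntegral_localInt :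
    letI := localIntAlgebra hvw
    Algebra.IsIntegral (localInt K q v) (localInt L q w) := by
  letI := localIntAlgebra hvw
  haveI : IsGaloisGroup G (𝓞 K) (𝓞 L) := IsGaloisGroup.of_isFractionRing G (𝓞 K) (𝓞 L) K L
  haveI := isGaloisGroup_localInt (G := G) hvw
  exact Algebra.IsInvariant.isIntegral (localInt K q v) (localInt L q w)
    (MulAction.stabilizer G w.1.asIdeal)

include G in
theorem isIntegralClosure_localInt :
    letI := localIntFieldAlgebra hvw
    IsIntegralClosure (localInt L q w) (localInt K q v) (localField L q w) := by
  letI := localIntAlgebra hvw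
  letI := localIntFieldAlgebra hvw
  haveI := isScalarTower_localInt_localInt_localField hvw
  haveI := isIntegral_localInt (G := G) hvw
  exact IsIntegralClosure.of_isIntegrallyClosed (localInt L q w) (localInt K q v)
    (localField L q w)

include G in
theorem finiteDimensional_localField :
    letI := localFieldAlgebra hvw
    FiniteDimensional (localField K q v) (localField L q w) := by
  letI := localFieldAlgebra hvw
  haveI := isGaloisGroup_localField (G := G) hvw
  exact IsGaloisGroup.finiteDimensional (MulAction.stabilizer G w.1.asIdeal)
    (localField K q v) (localField L q w)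

include G in
theorem isGalois_localField :
    letI := localFieldAlgebra hvw
    IsGalois (localField K q v) (localField L q w) := by
  letI := localFieldAlgebra hvw
  haveI := isGaloisGroup_localField (G := G) hvw
  exact IsGaloisGroup.isGalois (MulAction.stabilizer G w.1.asIdeal)
    (localField K q v) (localField L q w)

/-- The restriction to the ring of integers `localInt L q w` of the automorphism of the local
field attached to an element of the decomposition group is its action on `localInt L q w`. -/
theorem galRestrict_galEquiv_apply (d : MulAction.stabilizer G w.1.asIdeal)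
    (b : localInt L q w) :
    letI := localFieldAlgebra hvw
    letI := localIntAlgebra hvw
    letI := localIntFieldAlgebra hvw
    haveI := isScalarTower_localInt_localField_localField hvw
    haveI := isScalarTower_localInt_localInt_localField hvw
    haveI := isIntegralClosure_localInt (G := G) hvw
    haveI := finiteDimensional_localField (G := G) hvw
    haveI := isGaloisGroup_localField (G := G) hvw
    galRestrict (localInt K q v) (localField K q v) (localField L q w) (localInt L q w)
      (galEquiv (MulAction.stabilizer G w.1.asIdeal) (localField K q v) (localField L q w) d) b =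
        d • b := by
  letI := localFieldAlgebra hvw
  letI := localIntAlgebra hvw
  letI := localIntFieldAlgebra hvw
  haveI := isScalarTower_localInt_localField_localField hvw
  haveI := isScalarTower_localInt_localInt_localField hvw
  haveI := isIntegralClosure_localInt (G := G) hvw
  haveI := finiteDimensional_localField (G := G) hvw
  haveI := isGaloisGroup_localField (G := G) hvw
  apply IsFractionRing.injective (localInt L q w) (localField L q w)
  rw [algebraMap_galRestrict_apply, galEquiv_apply, algebraMap_localInt_localField,
    algebraMap_localInt_localField, stab_smul_toLocalField]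

end Galois

end Presentation

section Residue

variable {L : Type} [Field L] [NumberField L] {q : Nat.Primes}
  {G : Type} [Group G] [MulSemiringAction G L]

/-- The decomposition group preserves the maximal ideal of the completed local ring. -/
theorem stabilizer_smul_mem_maximalIdeal (w : PrimesOver L q)
    (d : MulAction.stabilizer G w.1.asIdeal) {b : localInt L q w}
    (hb : b ∈ maximalIdeal (localInt L q w)) : d • b ∈ maximalIdeal (localInt L q w) := by
  rw [mem_maximalIdeal, mem_nonunits_iff] at hb ⊢
  intro hu
  apply hb
  have := hu.map (MulSemiringAction.toRingHom (MulAction.stabilizer G w.1.asIdeal)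
    (localInt L q w) d⁻¹)
  rwa [MulSemiringAction.toRingHom_apply, inv_smul_smul] at this

/-- An element of the decomposition group which is a Frobenius (`x ↦ x ^ N` modulo `w`) on `𝓞 L`
is a Frobenius on the completed local ring. -/
theorem stabilizer_smul_sub_pow_mem (w : PrimesOver L q)
    (d : MulAction.stabilizer G w.1.asIdeal) (N : ℕ)
    (hd : ∀ x : 𝓞 L, d.1 • x - x ^ N ∈ w.1.asIdeal) (b : localInt L q w) :
    d • b - b ^ N ∈ maximalIdeal (localInt L q w) := by
  obtain ⟨x, hx⟩ := LocalInt.exists_sub_mem_maximalIdeal_pow w 1 b
  rw [pow_one] at hx
  have h1 : d • (b - algebraMap (𝓞 L) (localInt L q w) x) ∈ maximalIdeal (localInt L q w) :=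
    stabilizer_smul_mem_maximalIdeal w d hx
  have h2 : algebraMap (𝓞 L) (localInt L q w) (d.1 • x - x ^ N) ∈
      maximalIdeal (localInt L q w) := by
    have := (LocalInt.algebraMap_mem_maximalIdeal_pow_iff w 1 (d.1 • x - x ^ N)).2
      (by rw [pow_one]; exact hd x)
    rwa [pow_one] at this
  have h3 : (algebraMap (𝓞 L) (localInt L q w) x) ^ N - b ^ N ∈
      maximalIdeal (localInt L q w) := by
    obtain ⟨c, hc⟩ := sub_dvd_pow_sub_pow (algebraMap (𝓞 L) (localInt L q w) x) b N
    rw [hc, ← neg_sub b, neg_mul]
    exact Ideal.neg_mem_iff _ |>.2 (Ideal.mul_mem_right _ _ hx)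
  have h4 : d • b - b ^ N = d • (b - algebraMap (𝓞 L) (localInt L q w) x) +
      algebraMap (𝓞 L) (localInt L q w) (d.1 • x - x ^ N) +
      ((algebraMap (𝓞 L) (localInt L q w) x) ^ N - b ^ N) := by
    rw [smul_sub, stabilizer_smul_algebraMap, map_sub, map_pow]
    ring
  rw [h4]
  exact Ideal.add_mem _ (Ideal.add_mem _ h1 h2) h3

theorem residue_stabilizer_smul_eq_pow (w : PrimesOver L q)
    (d : MulAction.stabilizer G w.1.asIdeal) (N : ℕ)
    (hd : ∀ x : 𝓞 L, d.1 • x - x ^ N ∈ w.1.asIdeal) (b : localInt L q w) :
    residue (localInt L q w) (d • b) = residue (localInt L q w) b ^ N := by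
  rw [← sub_eq_zero, ← map_pow, ← map_sub, residue_eq_zero_iff]
  exact stabilizer_smul_sub_pow_mem w d N hd b

/-- The completed local ring is integral over `ℤ_q` inside the local field (in the form required
by `LocalInvTheory.inv_unram`). -/
theorem isIntegralElem_padic_localInt (w : PrimesOver L q) (b : localInt L q w) :
    ((algebraMap ℚ_[pv q] (localField L q w)).comp (algebraMap ℤ_[pv q] ℚ_[pv q])).IsIntegralElem
      (algebraMap (localInt L q w) (localField L q w) b) := by
  have hb : (algebraMap ℤ_[pv q] (localInt L q w)).IsIntegralElem b :=
    Algebra.IsIntegral.isIntegral (R := ℤ_[pv q]) b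
  have h1 : (algebraMap ℚ_[pv q] (localField L q w)).comp (algebraMap ℤ_[pv q] ℚ_[pv q]) =
      (algebraMap (localInt L q w) (localField L q w)).comp
        (algebraMap ℤ_[pv q] (localInt L q w)) := by
    ext a
    rw [RingHom.comp_apply, RingHom.comp_apply, algebraMap_localInt_localField,
      AlgHom.commutes]
    rfl
  rw [h1]
  exact hb.map _

theorem natCard_residueField_localInt (w : PrimesOver L q) :
    Nat.card (ResidueField (localInt L q w)) = Nat.card (𝓞 L ⧸ w.1.asIdeal) :=
  (Nat.card_congr (LocalInt.residueFieldEquiv w).toEquiv).symm

end Residue

section Frobenius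

variable {K L : Type} [Field K] [NumberField K] [Field L] [NumberField L] [Algebra K L]
  {q : Nat.Primes} {v : PrimesOver K q} {w : PrimesOver L q}
  (hvw : LiesOverAlong (algebraMap (𝓞 K) (𝓞 L)) v w)
  {G : Type} [Group G] [Finite G] [MulSemiringAction G L] [IsGaloisGroup G K L]

/-- **Frobenius dictionary**: if the local layer `localField L q w / localField K q v` is
unramified, an element `d` of the decomposition group of `w` which acts on `𝓞 L` as
`x ↦ x ^ N(v)` modulo `w` induces the Frobenius automorphism `Unramified.frob` of the local
layer (presented by the completed local rings). -/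
theorem galEquiv_eq_frob
    (d : MulAction.stabilizer G w.1.asIdeal)
    (hd : ∀ x : 𝓞 L, d.1 • x - x ^ Nat.card (𝓞 K ⧸ v.1.asIdeal) ∈ w.1.asIdeal) :
    letI := localFieldAlgebra hvw
    letI := localIntAlgebra hvw
    letI := localIntFieldAlgebra hvw
    haveI := isScalarTower_localInt_localField_localField hvw
    haveI := isScalarTower_localInt_localInt_localField hvw
    haveI := isIntegralClosure_localInt (G := G) hvw
    haveI := finiteDimensional_localField (G := G) hvw
    haveI := isGalois_localField (G := G) hvw
    haveI := isGaloisGroup_localField (G := G) hvw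
    haveI := isLocalHom_localInt hvw
    ∀ h : IsUnram (localInt K q v) (localInt L q w),
    galEquiv (MulAction.stabilizer G w.1.asIdeal) (localField K q v) (localField L q w) d =
      frob (localInt K q v) (localField K q v) (localField L q w) (localInt L q w) h := by
  letI := localFieldAlgebra hvw
  letI := localIntAlgebra hvw
  letI := localIntFieldAlgebra hvw
  haveI := isScalarTower_localInt_localField_localField hvw
  haveI := isScalarTower_localInt_localInt_localField hvw
  haveI := isIntegralClosure_localInt (G := G) hvw
  haveI := finiteDimensional_localField (G := G) hvw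
  haveI := isGalois_localField (G := G) hvw
  haveI := isGaloisGroup_localField (G := G) hvw
  haveI := isLocalHom_localInt hvw
  intro h
  rw [eq_frob_iff]
  intro b
  rw [galRestrict_galEquiv_apply hvw d b, natCard_residueField_localInt v]
  exact residue_stabilizer_smul_eq_pow w d _ hd b

/-- The same statement for an arithmetic Frobenius at `w` in the sense of Mathlib. -/
theorem galEquiv_eq_frob_of_isArithFrobAt (σ : G)
    (hσ : IsArithFrobAt (𝓞 K) σ w.1.asIdeal) :
    letI := localFieldAlgebra hvw
    letI := localIntAlgebra hvw
    letI := localIntFieldAlgebra hvw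
    haveI := isScalarTower_localInt_localField_localField hvw
    haveI := isScalarTower_localInt_localInt_localField hvw
    haveI := isIntegralClosure_localInt (G := G) hvw
    haveI := finiteDimensional_localField (G := G) hvw
    haveI := isGalois_localField (G := G) hvw
    haveI := isGaloisGroup_localField (G := G) hvw
    haveI := isLocalHom_localInt hvw
    ∀ h : IsUnram (localInt K q v) (localInt L q w),
    galEquiv (MulAction.stabilizer G w.1.asIdeal) (localField K q v) (localField L q w)
        ⟨σ, hσ.mem_stabilizer⟩ =
      frob (localInt K q v) (localField K q v) (localField L q w) (localInt L q w) h := by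
  refine galEquiv_eq_frob hvw ⟨σ, hσ.mem_stabilizer⟩ (fun x => ?_)
  obtain rfl := eq_primeBelow_of_liesOverAlong hvw
  exact hσ x

/-- **Unramifiedness dictionary**: if the inertia group of `w` in `G` is trivial, the extension
of completed local rings `localInt K q v ⊆ localInt L q w` is unramified. -/
theorem isUnram_localInt_of_inertia_eq_bot (h : Ideal.inertia G w.1.asIdeal = ⊥) :
    letI := localIntAlgebra hvw
    IsUnram (localInt K q v) (localInt L q w) := by
  letI := localIntAlgebra hvw
  haveI : IsGaloisGroup G (𝓞 K) (𝓞 L) := IsGaloisGroup.of_isFractionRing G (𝓞 K) (𝓞 L) K L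
  haveI := isGaloisGroup_localInt (G := G) hvw
  haveI := isLocalHom_localInt hvw
  obtain ⟨π, hπ, hfix, -⟩ := exists_fixed_uniformizer_localInt (G := G) w h
  obtain ⟨a, ha⟩ := Algebra.IsInvariant.isInvariant (A := localInt K q v)
    (B := localInt L q w) (G := MulAction.stabilizer G w.1.asIdeal) π hfix
  have ham : a ∈ maximalIdeal (localInt K q v) := by
    rw [mem_maximalIdeal, mem_nonunits_iff]
    intro hu
    have hπu : IsUnit π := ha ▸ hu.map (algebraMap (localInt K q v) (localInt L q w))
    have : π ∈ maximalIdeal (localInt L q w) := hπ ▸ Ideal.mem_span_singleton_self π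
    exact (mem_maximalIdeal π).1 this hπu
  unfold IsUnram
  apply le_antisymm
  · exact map_maximalIdeal_le
  · rw [hπ, Ideal.span_singleton_le_iff_mem, ← ha]
    exact Ideal.mem_map_of_mem _ ham

end Frobenius

end Fermat.Agent.Lib.CFT.Global.LocalDict
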