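import Fermat.Agent.Lib.CFT.Global.LocalDict.Ord
import Fermat.Agent.Lib.CFT.Global.Places.GaloisUnram

/-!
# Valuations of elements of the base field at primes of an extension ((GI-4), complement to (d))

For number fields `K ⊆ L`, a prime `W` of `𝓞 L` above the prime `V` of `𝓞 K` and `x : Kˣ`:

* `ordAt_map_eq_ramificationIdx'_mul` : `ord_W x = e(W | V) * ord_V x`;
* `ordAt_map_of_inertia_eq_bot` : if the inertia group of `W` (for a finite group `G` with
  `IsGaloisGroup G K L`) is trivial, then `ord_W x = ord_V x`, `V` the prime below `W`;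
* `ord_toFieldAt_map_of_inertia_eq_bot`: the same for the normalised valuation of the local field
  `FieldAt L q m` of `Global/LocalFieldAt.lean`.
-/

set_option autoImplicit false
set_option linter.style.haveILetI false

open scoped NumberField Pointwise

open IsDedekindDomain

noncomputable section

namespace Fermat.Agent.Lib.CFT.Global.LocalDict

open Fermat.Agent.Lib.CFT.Global Fermat.Agent.Lib.CFT.Global.Places
  Fermat.Agent.Lib.CFT.Global.Places.Galois Fermat.Agent.Lib.CFT.Global.LocalFieldAt
  Fermat.Agent.Lib.CFT.Global.EtaleAlg Fermat.Agent.Lib.CFT.Local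

variable {K L : Type} [Field K] [NumberField K] [Field L] [NumberField L] [Algebra K L]

/-- `ord_W x = e(W | V) * ord_V x` for `x` in the base field. -/
theorem ordAt_map_eq_ramificationIdx'_mul (V : HeightOneSpectrum (𝓞 K))
    (W : HeightOneSpectrum (𝓞 L)) [W.asIdeal.LiesOver V.asIdeal] (x : Kˣ) :
    SUnits.ordAt W (Units.map (algebraMap K L : K →* L) x) =
      (V.asIdeal.ramificationIdx' W.asIdeal : ℤ) * SUnits.ordAt V x := by
  have h := HeightOneSpectrum.valuation_liesOver L V W (x : K)
  have h' : W.valuation L ((Units.map (algebraMap K L : K →* L) x : Lˣ) : L) =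
      V.valuation K (x : K) ^ V.asIdeal.ramificationIdx' W.asIdeal := h.symm
  rw [SUnits.valuation_eq_exp_neg_ordAt, SUnits.valuation_eq_exp_neg_ordAt, ← WithZero.exp_nsmul,
    WithZero.exp_inj] at h'
  rw [nsmul_eq_mul] at h'
  linarith

/-- At a prime with trivial inertia, `ord_W x = ord_V x` for `x` in the base field. -/
theorem ordAt_map_of_inertia_eq_bot {q : Nat.Primes} {G : Type} [Group G] [MulSemiringAction G L]
    [Finite G] [IsGaloisGroup G K L] (w : PrimesOver L q)
    (h : Ideal.inertia G w.1.asIdeal = ⊥) (x : Kˣ) :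
    SUnits.ordAt w.1 (Units.map (algebraMap K L : K →* L) x) =
      SUnits.ordAt (primeBelow K w).1 x := by
  haveI : IsGaloisGroup G (𝓞 K) (𝓞 L) := IsGaloisGroup.of_isFractionRing G (𝓞 K) (𝓞 L) K L
  haveI : w.1.asIdeal.LiesOver (primeBelow K w).1.asIdeal := ⟨rfl⟩
  haveI : (primeBelow K w).1.asIdeal.IsMaximal := (primeBelow K w).1.isMaximal
  have hp0 : (primeBelow K w).1.asIdeal ≠ ⊥ := (primeBelow K w).1.ne_bot
  have h1 : Nat.card (w.1.asIdeal.inertia G) =
      (primeBelow K w).1.asIdeal.ramificationIdxIn (𝓞 L) :=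
    Ideal.card_inertia_eq_ramificationIdxIn (G := G) (primeBelow K w).1.asIdeal w.1.asIdeal
  have h2 : (primeBelow K w).1.asIdeal.ramificationIdxIn (𝓞 L) =
      w.1.asIdeal.ramificationIdx (𝓞 K) :=
    Ideal.ramificationIdxIn_eq_ramificationIdx (primeBelow K w).1.asIdeal w.1.asIdeal G
  have h3 : Ideal.ramificationIdx' (primeBelow K w).1.asIdeal w.1.asIdeal =
      w.1.asIdeal.ramificationIdx (𝓞 K) :=
    Ideal.ramificationIdx'_eq_ramificationIdx (primeBelow K w).1.asIdeal w.1.asIdeal hp0
  have h4 : Nat.card (w.1.asIdeal.inertia G) = 1 := by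
    rw [h]
    exact Subgroup.card_bot
  have h5 : Ideal.ramificationIdx' (primeBelow K w).1.asIdeal w.1.asIdeal = 1 := by
    rw [h3, ← h2, ← h1, h4]
  rw [ordAt_map_eq_ramificationIdx'_mul (primeBelow K w).1 w.1 x, h5, Nat.cast_one, one_mul]

/-- At a prime with trivial inertia, the normalised valuation of the local field `FieldAt L q m`
restricts on `Kˣ` to the valuation at the prime of `K` below. -/
theorem ord_toFieldAt_map_of_inertia_eq_bot {q : Nat.Primes} {G : Type} [Group G]
    [MulSemiringAction G L] [Finite G] [IsGaloisGroup G K L] (w : PrimesOver L q)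
    (h : Ideal.inertia G w.1.asIdeal = ⊥) (x : Kˣ) :
    letI := localIntFieldAtAlgebra w
    haveI := isFractionRing_localInt_fieldAt w
    UnitsFiltration.ord (localInt L q w) (FieldAt L q (primesEquivMaximalSpectrum L q w))
      (Units.map (toFieldAt L q (primesEquivMaximalSpectrum L q w) :
        L →* FieldAt L q (primesEquivMaximalSpectrum L q w))
        (Units.map (algebraMap K L : K →* L) x)) = SUnits.ordAt (primeBelow K w).1 x := by
  rw [ord_toFieldAt, ordAt_map_of_inertia_eq_bot (G := G) w h x]

end Fermat.Agent.Lib.CFT.Global.LocalDict
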