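import Mathlib
import Fermat.Agent.Lib.CFT.Global.Places.GaloisUnram
import Fermat.Agent.Lib.CFT.Global.LocalDict.Frob
import Fermat.Agent.Lib.CFT.Local.LocalInvContract
import Fermat.Agent.Lib.CFT.Global.LocalFieldAt

/-!
# The presentation of the local layer `L_w / K_v` by complete discrete valuation rings

For number fields `L / K`, a prime `w` of `𝓞 L` above the rational prime `q` and the prime `v` of
`𝓞 K` below `w`, the local layer `F = localField L q w` over `Kv = localField K q v` is presented by
the complete discrete valuation rings `A = localInt K q v ⊂ Kv` and `B = localInt L q w ⊂ F`.  We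
provide the full list of instances required by the unramified formula `inv_unram` of the contract
`Local/LocalInvContract.lean`, prove that `B / A` is unramified when the inertia group of `w` is
trivial, and apply the contract.
-/

open scoped TensorProduct NumberField Pointwise

noncomputable section

namespace Fermat.Agent.Lib.CFT.Global.LocalDict

open Fermat.Agent.Lib.CFT.Global Fermat.Agent.Lib.CFT.Global.Places
open Fermat.Agent.Lib.CFT.Global.Places.Galois IsDedekindDomain IsLocalRing

set_option linter.style.haveILetI false

section Towers

variable {K L : Type} [Field K] [NumberField K] [Field L] [NumberField L] [Algebra K L]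
  {q : Nat.Primes}
variable {v : PrimesOver K q} {w : PrimesOver L q}

theorem isScalarTower_padicInt_int_int (hvw : LiesOverAlong (algebraMap (𝓞 K) (𝓞 L)) v w) :
    letI := localIntAlgebra hvw
    IsScalarTower ℤ_[pv q] (localInt K q v) (localInt L q w) := by
  letI := localIntAlgebra hvw
  exact IsScalarTower.of_algebraMap_eq (fun a => (localIntMap_algebraMap_padic _ hvw a).symm)

/-- The completed local ring `𝓞_w` is the integral closure of `𝓞_v` in `L_w` (no Galois
hypothesis; see also `isIntegralClosure_localInt`). -/
theorem isIntegralClosure_localInt_of_liesOver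
    (hvw : LiesOverAlong (algebraMap (𝓞 K) (𝓞 L)) v w) :
    letI := localIntFieldAlgebra hvw
    IsIntegralClosure (localInt L q w) (localInt K q v) (localField L q w) := by
  letI := localIntAlgebra hvw
  letI := localIntFieldAlgebra hvw
  haveI := isScalarTower_localInt_localInt_localField hvw
  haveI := isScalarTower_padicInt_int_int hvw
  refine ⟨toLocalField_injective w, ?_⟩
  intro x
  constructor
  · intro hx
    have hx' : IsIntegral (localInt L q w) x := hx.tower_top
    exact IsIntegrallyClosed.isIntegral_iff.mp hx'
  · rintro ⟨y, rfl⟩
    have h1 : IsIntegral ℤ_[pv q] y := Algebra.IsIntegral.isIntegral y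
    have h2 : IsIntegral (localInt K q v) y := h1.tower_top
    exact h2.algebraMap

end Towers

section Unram

variable {K L : Type} [Field K] [NumberField K] [Field L] [NumberField L] [Algebra K L]
  {q : Nat.Primes}
variable {G : Type} [Group G] [MulSemiringAction G L]
variable {v : PrimesOver K q} {w : PrimesOver L q}

open Fermat.Agent.Lib.CFT.Local.Unramified (IsUnram)

/-- If `𝔭_v 𝓞_L ⊄ 𝔭_w ^ 2` then `𝓞_w / 𝓞_v` is unramified. -/
theorem isUnram_localInt_of_not_mem_sq (hvw : LiesOverAlong (algebraMap (𝓞 K) (𝓞 L)) v w)
    {π : 𝓞 K} (hπ : π ∈ v.1.asIdeal) (hπ2 : algebraMap (𝓞 K) (𝓞 L) π ∉ w.1.asIdeal ^ 2) :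
    letI := localIntAlgebra hvw
    IsUnram (localInt K q v) (localInt L q w) := by
  letI := localIntAlgebra hvw
  have hπ2' : π ∉ v.1.asIdeal ^ 2 := by
    intro h
    apply hπ2
    have h1 : (v.1.asIdeal ^ 2).map (algebraMap (𝓞 K) (𝓞 L)) ≤ w.1.asIdeal ^ 2 := by
      rw [Ideal.map_pow]
      exact Ideal.pow_right_mono (Ideal.map_le_iff_le_comap.mpr fun x hx => hvw x hx) 2
    exact h1 (Ideal.mem_map_of_mem _ h)
  unfold IsUnram
  rw [LocalInt.maximalIdeal_eq_span v hπ hπ2', LocalInt.maximalIdeal_eq_span w (hvw π hπ) hπ2,
    Ideal.map_span, Set.image_singleton]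
  congr 2

end Unram

section Contract

open Fermat.Agent.Lib.CFT.Local (LocalInvTheory)
open Fermat.Agent.Lib.CFT.Local.LocalBrauer (QZ invUnr)
open Fermat.Agent.Lib.CFT.Local.Unramified (IsUnram)
open Fermat.Agent.Lib.CFT.Global.LocalFieldAt
open EtaleAlg

attribute [local instance] Units.mulDistribMulActionRight

variable {K L : Type} [Field K] [NumberField K] [Field L] [NumberField L] [Algebra K L]
  {q : Nat.Primes}
variable {G : Type} [Group G] [MulSemiringAction G L]
variable {v : PrimesOver K q} {w : PrimesOver L q}

/-- The local field at the maximal ideal attached to `w` is `localField L q w`. -/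
theorem fieldAt_primesEquiv (w : PrimesOver L q) :
    FieldAt L q (primesEquivMaximalSpectrum L q w) = localField L q w := rfl

/-- **The contract applied to the presentation `𝓞_v ⊂ K_v`, `𝓞_w ⊂ L_w`**: at a prime `w` with
trivial inertia the canonical local invariant is the explicit unramified invariant. -/
theorem inv_unram_localField (T : LocalInvTheory (pv q)) [Finite G] [IsGaloisGroup G K L]
    [FaithfulSMul G L] (hvw : LiesOverAlong (algebraMap (𝓞 K) (𝓞 L)) v w)
    (h : Ideal.inertia G w.1.asIdeal = ⊥)
    (x : groupCohomology (Rep.ofMulDistribMulAction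
      (MulAction.stabilizer G (primesEquivMaximalSpectrum L q w))
      (FieldAt L q (primesEquivMaximalSpectrum L q w))ˣ) 2) :
    letI : Algebra (localField K q v) (FieldAt L q (primesEquivMaximalSpectrum L q w)) :=
      localFieldAlgebra hvw
    letI : Algebra (localInt K q v) (FieldAt L q (primesEquivMaximalSpectrum L q w)) :=
      localIntFieldAlgebra hvw
    letI : Algebra (localInt L q w) (FieldAt L q (primesEquivMaximalSpectrum L q w)) :=
      inferInstanceAs (Algebra (localInt L q w) (localField L q w))
    letI := localIntAlgebra hvw
    letI : IsScalarTower (localInt K q v) (localField K q v)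
      (FieldAt L q (primesEquivMaximalSpectrum L q w)) := isScalarTower_localInt_localField_localField hvw
    letI : IsScalarTower (localInt K q v) (localInt L q w)
      (FieldAt L q (primesEquivMaximalSpectrum L q w)) := isScalarTower_localInt_localInt_localField hvw
    letI : IsIntegralClosure (localInt L q w) (localInt K q v)
      (FieldAt L q (primesEquivMaximalSpectrum L q w)) := isIntegralClosure_localInt_of_liesOver hvw
    letI : IsFractionRing (localInt L q w) (FieldAt L q (primesEquivMaximalSpectrum L q w)) :=
      inferInstanceAs (IsFractionRing (localInt L q w) (localField L q w))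
    letI : IsLocalHom (algebraMap (localInt K q v) (localInt L q w)) :=
      isLocalHom_localInt hvw
    letI : IsGaloisGroup (MulAction.stabilizer G (primesEquivMaximalSpectrum L q w))
      (localField K q v) (FieldAt L q (primesEquivMaximalSpectrum L q w)) :=
      isGaloisGroup_localField' hvw
    letI : FiniteDimensional (localField K q v)
      (FieldAt L q (primesEquivMaximalSpectrum L q w)) :=
      IsGaloisGroup.finiteDimensional
        (MulAction.stabilizer G (primesEquivMaximalSpectrum L q w)) _ _
    letI : IsGalois (localField K q v) (FieldAt L q (primesEquivMaximalSpectrum L q w)) :=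
      IsGaloisGroup.isGalois (MulAction.stabilizer G (primesEquivMaximalSpectrum L q w)) _ _
    T.inv (FieldAt L q (primesEquivMaximalSpectrum L q w))
        (MulAction.stabilizer G (primesEquivMaximalSpectrum L q w)) x =
      invUnr (localInt K q v) (localField K q v) (FieldAt L q (primesEquivMaximalSpectrum L q w))
        (localInt L q w) (isUnram_localInt_of_inertia_eq_bot (G := G) hvw h)
        ((unitsCohomologyIso (MulAction.stabilizer G (primesEquivMaximalSpectrum L q w))
          (localField K q v) (FieldAt L q (primesEquivMaximalSpectrum L q w)) 2).hom x) := by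
  letI : Algebra (localField K q v) (FieldAt L q (primesEquivMaximalSpectrum L q w)) :=
    localFieldAlgebra hvw
  letI : Algebra (localInt K q v) (FieldAt L q (primesEquivMaximalSpectrum L q w)) :=
    localIntFieldAlgebra hvw
  letI : Algebra (localInt L q w) (FieldAt L q (primesEquivMaximalSpectrum L q w)) :=
    inferInstanceAs (Algebra (localInt L q w) (localField L q w))
  letI := localIntAlgebra hvw
  letI : IsScalarTower (localInt K q v) (localField K q v)
    (FieldAt L q (primesEquivMaximalSpectrum L q w)) := isScalarTower_localInt_localField_localField hvw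
  letI : IsScalarTower (localInt K q v) (localInt L q w)
    (FieldAt L q (primesEquivMaximalSpectrum L q w)) := isScalarTower_localInt_localInt_localField hvw
  letI : IsIntegralClosure (localInt L q w) (localInt K q v)
    (FieldAt L q (primesEquivMaximalSpectrum L q w)) := isIntegralClosure_localInt_of_liesOver hvw
  letI : IsFractionRing (localInt L q w) (FieldAt L q (primesEquivMaximalSpectrum L q w)) :=
    inferInstanceAs (IsFractionRing (localInt L q w) (localField L q w))
  letI : IsLocalHom (algebraMap (localInt K q v) (localInt L q w)) :=
    isLocalHom_localInt hvw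
  letI : IsGaloisGroup (MulAction.stabilizer G (primesEquivMaximalSpectrum L q w))
    (localField K q v) (FieldAt L q (primesEquivMaximalSpectrum L q w)) :=
    isGaloisGroup_localField' hvw
  letI : FiniteDimensional (localField K q v)
    (FieldAt L q (primesEquivMaximalSpectrum L q w)) :=
    IsGaloisGroup.finiteDimensional
      (MulAction.stabilizer G (primesEquivMaximalSpectrum L q w)) _ _
  letI : IsGalois (localField K q v) (FieldAt L q (primesEquivMaximalSpectrum L q w)) :=
    IsGaloisGroup.isGalois (MulAction.stabilizer G (primesEquivMaximalSpectrum L q w)) _ _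
  have key := T.inv_unram (FieldAt L q (primesEquivMaximalSpectrum L q w))
    (MulAction.stabilizer G (primesEquivMaximalSpectrum L q w)) (localInt K q v)
    (localField K q v) (localInt L q w)
  exact key (fun b => isIntegralElem_padic_localInt w b) (isUnram_localInt_of_inertia_eq_bot (G := G) hvw h) x

/-- The Galois automorphism of `L_w / K_v` attached to an element of the stabilizer of the maximal
ideal of `w` (acting by `EtaleAlg.residueAction`) is the one attached to the same element in the
decomposition group `MulAction.stabilizer G w.1.asIdeal` (acting by `localFieldStabAction`). -/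
theorem galEquiv_primesEquiv_apply [Finite G] [IsGaloisGroup G K L]
    (hvw : LiesOverAlong (algebraMap (𝓞 K) (𝓞 L)) v w)
    (σ : MulAction.stabilizer G (primesEquivMaximalSpectrum L q w)) (x : localField L q w) :
    letI : Algebra (localField K q v) (FieldAt L q (primesEquivMaximalSpectrum L q w)) :=
      localFieldAlgebra hvw
    letI : IsGaloisGroup (MulAction.stabilizer G (primesEquivMaximalSpectrum L q w))
      (localField K q v) (FieldAt L q (primesEquivMaximalSpectrum L q w)) :=
      isGaloisGroup_localField' hvw
    letI := localFieldAlgebra hvw
    letI := isGaloisGroup_localField (G := G) hvw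
    galEquiv (MulAction.stabilizer G (primesEquivMaximalSpectrum L q w))
        (localField K q v) (FieldAt L q (primesEquivMaximalSpectrum L q w)) σ x =
      galEquiv (MulAction.stabilizer G w.1.asIdeal) (localField K q v) (localField L q w)
        ⟨σ.1, (mem_stabilizer_primesEquiv_iff' q σ.1 w).mp σ.2⟩ x := rfl

/-- **Frobenius dictionary, `MaximalSpectrum` form**: an element of the stabilizer of the maximal
ideal of `w` acting on `𝓞 L` as `x ↦ x ^ N(v)` modulo `w` induces the Frobenius of the unramified
local layer `L_w / K_v` (helper27's `galEquiv_eq_frob` transported to the conventions of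
`invAtPrime`). -/
theorem galEquiv_eq_frob_primesEquiv [Finite G] [IsGaloisGroup G K L]
    (hvw : LiesOverAlong (algebraMap (𝓞 K) (𝓞 L)) v w)
    (σ : MulAction.stabilizer G (primesEquivMaximalSpectrum L q w))
    (hσ : ∀ x : 𝓞 L, σ.1 • x - x ^ Nat.card (𝓞 K ⧸ v.1.asIdeal) ∈ w.1.asIdeal) :
    letI : Algebra (localField K q v) (FieldAt L q (primesEquivMaximalSpectrum L q w)) :=
      localFieldAlgebra hvw
    letI : Algebra (localInt K q v) (FieldAt L q (primesEquivMaximalSpectrum L q w)) :=
      localIntFieldAlgebra hvw
    letI : Algebra (localInt L q w) (FieldAt L q (primesEquivMaximalSpectrum L q w)) :=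
      inferInstanceAs (Algebra (localInt L q w) (localField L q w))
    letI := localIntAlgebra hvw
    letI : IsScalarTower (localInt K q v) (localField K q v)
      (FieldAt L q (primesEquivMaximalSpectrum L q w)) :=
      isScalarTower_localInt_localField_localField hvw
    letI : IsScalarTower (localInt K q v) (localInt L q w)
      (FieldAt L q (primesEquivMaximalSpectrum L q w)) :=
      isScalarTower_localInt_localInt_localField hvw
    letI : IsIntegralClosure (localInt L q w) (localInt K q v)
      (FieldAt L q (primesEquivMaximalSpectrum L q w)) :=
      isIntegralClosure_localInt_of_liesOver hvw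
    letI : IsLocalHom (algebraMap (localInt K q v) (localInt L q w)) :=
      isLocalHom_localInt hvw
    letI : IsGaloisGroup (MulAction.stabilizer G (primesEquivMaximalSpectrum L q w))
      (localField K q v) (FieldAt L q (primesEquivMaximalSpectrum L q w)) :=
      isGaloisGroup_localField' hvw
    letI : FiniteDimensional (localField K q v)
      (FieldAt L q (primesEquivMaximalSpectrum L q w)) :=
      IsGaloisGroup.finiteDimensional
        (MulAction.stabilizer G (primesEquivMaximalSpectrum L q w)) _ _
    letI : IsGalois (localField K q v) (FieldAt L q (primesEquivMaximalSpectrum L q w)) :=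
      IsGaloisGroup.isGalois (MulAction.stabilizer G (primesEquivMaximalSpectrum L q w)) _ _
    ∀ h : IsUnram (localInt K q v) (localInt L q w),
    galEquiv (MulAction.stabilizer G (primesEquivMaximalSpectrum L q w))
        (localField K q v) (FieldAt L q (primesEquivMaximalSpectrum L q w)) σ =
      Fermat.Agent.Lib.CFT.Local.Unramified.frob (localInt K q v) (localField K q v)
        (FieldAt L q (primesEquivMaximalSpectrum L q w)) (localInt L q w) h := by
  intro h
  have key := galEquiv_eq_frob (G := G) hvw
    ⟨σ.1, (mem_stabilizer_primesEquiv_iff' q σ.1 w).mp σ.2⟩ hσ h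
  exact key

end Contract

end Fermat.Agent.Lib.CFT.Global.LocalDict
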