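import Fermat.Agent.Lib.CFT.Local.LocalInvContract
import Fermat.Agent.Lib.CFT.Global.ClassFormation.ScalarCocycle

/-!
# The unramified invariant in action form (abstract part of (GI-4)(e))

For an unramified layer `Frac A = K ⊆ F = Frac B` of complete discretely valued fields with an
abstract Galois group `D` (`IsGaloisGroup D K F`) and `σ : D` inducing the Frobenius, the explicit
unramified invariant of the class of a 2-cocycle `c` of `D` with values in `Fˣ` (action form) is
`(∑ τ, ord (c (σ, τ))) / |D|`.
-/

set_option autoImplicit false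
set_option maxHeartbeats 400000

namespace Fermat.Agent.Lib.CFT.Global.LocalDict

open IsLocalRing groupCohomology CategoryTheory
open Fermat.Agent.Lib.CFT.Local.UnitsFiltration Fermat.Agent.Lib.CFT.Local.Unramified
open Fermat.Agent.Lib.CFT.Local.LocalBrauer Fermat.Agent.Lib.CFT.Global.LocalFieldAt

attribute [local instance] Units.mulDistribMulActionRight

variable (A K F B : Type) [CommRing A] [IsDomain A] [IsDiscreteValuationRing A]
  [IsAdicComplete (maximalIdeal A) A] [Finite (ResidueField A)]
  [Field K] [Algebra A K] [IsFractionRing A K]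
  [Field F] [Algebra K F] [FiniteDimensional K F] [IsGalois K F]
  [Algebra A F] [IsScalarTower A K F]
  [CommRing B] [IsDomain B] [IsDiscreteValuationRing B] [Algebra A B] [Algebra B F]
  [IsScalarTower A B F] [IsIntegralClosure B A F] [IsFractionRing B F]
  [HenselianLocalRing B] [IsLocalHom (algebraMap A B)]
variable (D : Type) [Group D] [Fintype D] [MulSemiringAction D F] [IsGaloisGroup D K F]

/-- The explicit unramified invariant, in action form. -/
theorem invUnr_unitsCohomologyIso_H2π (h : IsUnram A B) (σ : D)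
    (hσ : galEquiv D K F σ = frob A K F B h)
    (c : cocycles₂ (Rep.ofMulDistribMulAction D Fˣ)) :
    invUnr A K F B h ((unitsCohomologyIso D K F 2).hom (H2π _ c)) =
      (((∑ τ : D, ord B F (Additive.toMul (α := Fˣ) (c (σ, τ))) : ℤ) : ℚ) /
        (Nat.card D : ℚ) : ℚ) := by
  rw [unitsCohomologyIso_hom, H2π_comp_map_apply, invUnr_H2π, finrank_eq_card D K F]
  congr 3
  rw [← (galEquiv D K F).toEquiv.sum_comp]
  refine Finset.sum_congr rfl fun τ _ => ?_
  have h1 : (galEquiv D K F).symm (frob A K F B h) = σ := by
    rw [← hσ, MulEquiv.symm_apply_apply]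
  have h2 : (galEquiv D K F).symm ((galEquiv D K F).toEquiv τ) = τ :=
    MulEquiv.symm_apply_apply _ τ
  rw [coe_mapCocycles₂]
  change ord B F (Additive.toMul (c ((galEquiv D K F).symm (frob A K F B h),
    (galEquiv D K F).symm ((galEquiv D K F).toEquiv τ)))) = _
  rw [h1, h2]

omit [IsAdicComplete (maximalIdeal A) A] [Finite (ResidueField A)] [Algebra A K]
  [IsFractionRing A K] [Algebra K F] [FiniteDimensional K F] [IsGalois K F] [Algebra A F]
  [IsScalarTower A K F] [Algebra A B] [IsScalarTower A B F] [IsIntegralClosure B A F]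
  [HenselianLocalRing B] [IsLocalHom (algebraMap A B)] [CommRing A] [IsDomain A]
  [IsDiscreteValuationRing A] [Field K] in
theorem ord_toMul_zsmul (n : ℤ) (x : Additive Fˣ) :
    ord B F (Additive.toMul (n • x)) = n * ord B F (Additive.toMul x) := by
  rw [toMul_zsmul, ord_zpow]

open Fermat.Agent.Lib.CFT.Global.ClassFormation in
/-- The explicit unramified invariant of a scalar class `[z • a]` (for instance `a ∪ δχ`):
`(∑ τ, z σ τ) · ord(a) / |D|`. -/
theorem invUnr_unitsCohomologyIso_scalarClass (h : IsUnram A B) (σ : D)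
    (hσ : galEquiv D K F σ = frob A K F B h) {z : D → D → ℤ} (hz : IsScalarCocycle z)
    (a : (Rep.ofMulDistribMulAction D Fˣ).ρ.invariants) :
    invUnr A K F B h ((unitsCohomologyIso D K F 2).hom
      (scalarClass (Rep.ofMulDistribMulAction D Fˣ) hz a)) =
      ((((∑ τ : D, z σ τ) * ord B F (Additive.toMul (α := Fˣ) a.1) : ℤ) : ℚ) /
        (Nat.card D : ℚ) : ℚ) := by
  rw [scalarClass_apply, invUnr_unitsCohomologyIso_H2π A K F B D h σ hσ]
  congr 3
  rw [Finset.sum_mul]
  refine Finset.sum_congr rfl fun τ _ => ?_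
  rw [scalarCocycle_apply]
  exact ord_toMul_zsmul F B (z σ τ) a.1

end Fermat.Agent.Lib.CFT.Global.LocalDict
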