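import Fermat.Agent.Lib.CFT.Global.LocalDict.Presentation
import Fermat.Agent.Lib.CFT.Global.LocalDict.Frob
import Fermat.Agent.Lib.CFT.Global.LocalDict.UnramAbstract
import Fermat.Agent.Lib.CFT.Global.ClassFormation.LocalInv

/-!
# (GI-4)(e): the unramified local invariant in global terms

`L / K` number fields with Galois group `G`, `w` a prime of `𝓞 L` above `q` lying over the prime
`v` of `𝓞 K`, with trivial inertia, `m` the corresponding maximal ideal of `ℚ_q ⊗ L`, and
`σ ∈ G_m` acting on `𝓞 L` as `x ↦ x ^ N(v)` modulo `w`.  Then for every 2-cocycle `c` of `G_m` with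
values in `(L_w)ˣ`

`invAtPrime T L G q m [c] = (∑ τ, ord_w (c (σ, τ))) / |G_m|`.
-/

set_option autoImplicit false
set_option maxHeartbeats 1000000
set_option linter.style.haveILetI false
set_option linter.unusedSectionVars false

open scoped TensorProduct NumberField Pointwise

noncomputable section

namespace Fermat.Agent.Lib.CFT.Global.LocalDict

open Fermat.Agent.Lib.CFT.Global Fermat.Agent.Lib.CFT.Global.Places
open Fermat.Agent.Lib.CFT.Global.Places.Galois IsDedekindDomain IsLocalRing
open Fermat.Agent.Lib.CFT.Local (LocalInvTheory)
open Fermat.Agent.Lib.CFT.Local.LocalBrauer (QZ invUnr)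
open Fermat.Agent.Lib.CFT.Local.Unramified (IsUnram frob)
open Fermat.Agent.Lib.CFT.Local.UnitsFiltration (ord)
open Fermat.Agent.Lib.CFT.Global.LocalFieldAt Fermat.Agent.Lib.CFT.Global.ClassFormation
open EtaleAlg groupCohomology

attribute [local instance] Units.mulDistribMulActionRight

variable {K L : Type} [Field K] [NumberField K] [Field L] [NumberField L] [Algebra K L]
  {q : Nat.Primes}
variable {G : Type} [Group G] [Finite G] [MulSemiringAction G L] [IsGaloisGroup G K L]
  [FaithfulSMul G L]
variable {v : PrimesOver K q} {w : PrimesOver L q}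

/-- **(GI-4)(e)**: the canonical local invariant at an unramified prime, in global terms. -/
theorem invAtPrime_unram (T : ∀ q : Nat.Primes, LocalInvTheory (pv q))
    (hvw : LiesOverAlong (algebraMap (𝓞 K) (𝓞 L)) v w)
    (h : Ideal.inertia G w.1.asIdeal = ⊥)
    [Fintype (MulAction.stabilizer G (primesEquivMaximalSpectrum L q w))]
    (σ : MulAction.stabilizer G (primesEquivMaximalSpectrum L q w))
    (hσ : ∀ x : 𝓞 L, σ.1 • x - x ^ Nat.card (𝓞 K ⧸ v.1.asIdeal) ∈ w.1.asIdeal)
    (c : cocycles₂ (Rep.ofMulDistribMulAction
      (MulAction.stabilizer G (primesEquivMaximalSpectrum L q w))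
      (FieldAt L q (primesEquivMaximalSpectrum L q w))ˣ)) :
    invAtPrime T L G q (primesEquivMaximalSpectrum L q w) (H2π _ c) =
      (((∑ τ : MulAction.stabilizer G (primesEquivMaximalSpectrum L q w),
          ord (localInt L q w) (localField L q w)
            (Additive.toMul (α := (localField L q w)ˣ) (c (σ, τ))) : ℤ) : ℚ) /
        (Nat.card (MulAction.stabilizer G (primesEquivMaximalSpectrum L q w)) : ℚ) : ℚ) := by
  letI : Algebra (localField K q v) (FieldAt L q (primesEquivMaximalSpectrum L q w)) :=
    localFieldAlgebra hvw
  letI : Algebra (localInt K q v) (FieldAt L q (primesEquivMaximalSpectrum L q w)) :=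
    localIntFieldAlgebra hvw
  letI : Algebra (localInt L q w) (FieldAt L q (primesEquivMaximalSpectrum L q w)) :=
    inferInstanceAs (Algebra (localInt L q w) (localField L q w))
  letI := localIntAlgebra hvw
  letI : IsScalarTower (localInt K q v) (localField K q v)
    (FieldAt L q (primesEquivMaximalSpectrum L q w)) := isScalarTower_localInt_localField_localField hvw
  letI : IsScalarTower (localInt K q v) (localInt L q w)
    (FieldAt L q (primesEquivMaximalSpectrum L q w)) := isScalarTower_localInt_localInt_localField hvw
  letI : IsIntegralClosure (localInt L q w) (localInt K q v)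
    (FieldAt L q (primesEquivMaximalSpectrum L q w)) := isIntegralClosure_localInt_of_liesOver hvw
  letI : IsFractionRing (localInt L q w) (FieldAt L q (primesEquivMaximalSpectrum L q w)) :=
    inferInstanceAs (IsFractionRing (localInt L q w) (localField L q w))
  letI : IsLocalHom (algebraMap (localInt K q v) (localInt L q w)) :=
    isLocalHom_localInt hvw
  letI : IsGaloisGroup (MulAction.stabilizer G (primesEquivMaximalSpectrum L q w))
    (localField K q v) (FieldAt L q (primesEquivMaximalSpectrum L q w)) :=
    isGaloisGroup_localField' hvw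
  letI : FiniteDimensional (localField K q v)
    (FieldAt L q (primesEquivMaximalSpectrum L q w)) :=
    IsGaloisGroup.finiteDimensional
      (MulAction.stabilizer G (primesEquivMaximalSpectrum L q w)) _ _
  letI : IsGalois (localField K q v) (FieldAt L q (primesEquivMaximalSpectrum L q w)) :=
    IsGaloisGroup.isGalois (MulAction.stabilizer G (primesEquivMaximalSpectrum L q w)) _ _
  have h1 := inv_unram_localField (T q) hvw h (H2π _ c)
  unfold invAtPrime
  rw [h1]
  have hfrob := galEquiv_eq_frob_primesEquiv (G := G) hvw σ hσ
    (isUnram_localInt_of_inertia_eq_bot (G := G) hvw h)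
  have key := invUnr_unitsCohomologyIso_H2π (localInt K q v) (localField K q v)
    (FieldAt L q (primesEquivMaximalSpectrum L q w)) (localInt L q w)
    (MulAction.stabilizer G (primesEquivMaximalSpectrum L q w))
  exact key (isUnram_localInt_of_inertia_eq_bot (G := G) hvw h) σ hfrob c

end Fermat.Agent.Lib.CFT.Global.LocalDict
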