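import Fermat.Agent.Lib.CFT.Global.LocalDict.Unram
import Fermat.Agent.Lib.CFT.Global.LocalDict.Ord
import Fermat.Agent.Lib.CFT.Global.ClassFormation.CycloSymbolLocal
import Fermat.Agent.Lib.CFT.Local.LocalBrauer.UnramBaseChange

/-!
# (GI-4)(e), consumer forms: the local invariant of a cyclic symbol at an unramified prime

`L / K` number fields with Galois group `G`, `w` a prime of `𝓞 L` above `q` over the prime `v` of
`𝓞 K` with trivial inertia, `m` the corresponding maximal ideal of `ℚ_q ⊗ L`, `σ` an arithmetic
Frobenius at `w`.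

* `sub_pow_mem_of_isArithFrobAt`: the congruence hypothesis of `invAtPrime_unram` from Mathlib's
  `IsArithFrobAt`;
* `invAtPrime_unram_scalarClass`: `inv_m [z • b] = (∑ τ, z σ τ) * ord_w b / |G_m|`;
* `ordAt_map_algebraMap_of_inertia_eq_bot`: `ord_w x = ord_v x` for `x ∈ Kˣ`;
* `locInv_symbol_unram`, `locInv_symbol_unram_base`: for `G = ⟨s⟩` cyclic, the local invariant at
  `m` of the symbol `[carry s • a]` is `dlog s σ * ord_w a / |G|`.
-/

set_option autoImplicit false
set_option maxHeartbeats 1000000
set_option linter.style.haveILetI false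
set_option linter.unusedSectionVars false

open scoped TensorProduct NumberField Pointwise

noncomputable section

namespace Fermat.Agent.Lib.CFT.Global.LocalDict

open Fermat.Agent.Lib.CFT.Global Fermat.Agent.Lib.CFT.Global.Places
open Fermat.Agent.Lib.CFT.Global.Places.Galois IsDedekindDomain IsLocalRing
open Fermat.Agent.Lib.CFT.Local (LocalInvTheory)
open Fermat.Agent.Lib.CFT.Local.LocalBrauer (QZ invUnr)
open Fermat.Agent.Lib.CFT.Local.Unramified (IsUnram frob)
open Fermat.Agent.Lib.CFT.Local.UnitsFiltration (ord)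
open Fermat.Agent.Lib.CFT.Global.LocalFieldAt Fermat.Agent.Lib.CFT.Global.ClassFormation
open Fermat.Agent.Lib.CFT.Global.ClassFormation.CycloSymbol
open Fermat.Agent.Lib.CFT.Coh.CyclicExplicit
open EtaleAlg groupCohomology

attribute [local instance] Units.mulDistribMulActionRight

variable {K L : Type} [Field K] [NumberField K] [Field L] [NumberField L] [Algebra K L]
  {q : Nat.Primes}
variable {G : Type} [Group G] [Finite G] [MulSemiringAction G L] [IsGaloisGroup G K L]
  [FaithfulSMul G L]
variable {v : PrimesOver K q} {w : PrimesOver L q}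

/-- The congruence hypothesis of `invAtPrime_unram` for an arithmetic Frobenius at `w`. -/
theorem sub_pow_mem_of_isArithFrobAt (hvw : LiesOverAlong (algebraMap (𝓞 K) (𝓞 L)) v w)
    (σ : G) (hσ : IsArithFrobAt (𝓞 K) σ w.1.asIdeal) (x : 𝓞 L) :
    σ • x - x ^ Nat.card (𝓞 K ⧸ v.1.asIdeal) ∈ w.1.asIdeal := by
  obtain rfl := eq_primeBelow_of_liesOverAlong hvw
  exact hσ x

/-- An arithmetic Frobenius at `w` lies in the stabilizer of the maximal ideal attached to `w`. -/
theorem mem_stabilizer_primesEquiv_of_isArithFrobAt (σ : G)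
    (hσ : IsArithFrobAt (𝓞 K) σ w.1.asIdeal) :
    σ ∈ MulAction.stabilizer G (primesEquivMaximalSpectrum L q w) :=
  (mem_stabilizer_primesEquiv_iff' q σ w).mpr hσ.mem_stabilizer

/-- **(GI-4)(e), scalar classes**: at an unramified prime the local invariant of the class of the
cocycle `(ρ, τ) ↦ b ^ z ρ τ` (`b` fixed by the decomposition group) is
`(∑ τ, z σ τ) * ord_w b / |G_m|`, `σ` the Frobenius. -/
theorem invAtPrime_unram_scalarClass (T : ∀ q : Nat.Primes, LocalInvTheory (pv q))
    (hvw : LiesOverAlong (algebraMap (𝓞 K) (𝓞 L)) v w)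
    (h : Ideal.inertia G w.1.asIdeal = ⊥)
    [Fintype (MulAction.stabilizer G (primesEquivMaximalSpectrum L q w))]
    (σ : MulAction.stabilizer G (primesEquivMaximalSpectrum L q w))
    (hσ : ∀ x : 𝓞 L, σ.1 • x - x ^ Nat.card (𝓞 K ⧸ v.1.asIdeal) ∈ w.1.asIdeal)
    {z : MulAction.stabilizer G (primesEquivMaximalSpectrum L q w) →
      MulAction.stabilizer G (primesEquivMaximalSpectrum L q w) → ℤ} (hz : IsScalarCocycle z)
    (b : (Rep.ofMulDistribMulAction (MulAction.stabilizer G (primesEquivMaximalSpectrum L q w))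
      (FieldAt L q (primesEquivMaximalSpectrum L q w))ˣ).ρ.invariants) :
    invAtPrime T L G q (primesEquivMaximalSpectrum L q w) (scalarClass
      (Rep.ofMulDistribMulAction (MulAction.stabilizer G (primesEquivMaximalSpectrum L q w))
        (FieldAt L q (primesEquivMaximalSpectrum L q w))ˣ) hz b) =
    (((((∑ τ : MulAction.stabilizer G (primesEquivMaximalSpectrum L q w), z σ τ) *
      ord (localInt L q w) (localField L q w)
        (Additive.toMul (α := (localField L q w)ˣ) b.1) : ℤ) : ℚ) /
      (Nat.card (MulAction.stabilizer G (primesEquivMaximalSpectrum L q w)) : ℚ) : ℚ) : QZ) := by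
  letI : Fintype G := Fintype.ofFinite G
  exact invAtPrime_scalarClass_of_cocycle_formula T L G q (primesEquivMaximalSpectrum L q w) σ
    (fun u => ord (localInt L q w) (localField L q w) u)
    (fun u k => Fermat.Agent.Lib.CFT.Local.UnitsFiltration.ord_zpow (B := localInt L q w)
      (L := localField L q w) u k)
    (fun c => invAtPrime_unram T hvw h σ hσ c) hz b

/-- Compatibility of `K → K_v`, `L → L_w` with the embedding of local fields. -/
theorem localFieldBaseMap_ofField (hvw : LiesOverAlong (algebraMap (𝓞 K) (𝓞 L)) v w) (x : K) :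
    localFieldBaseMap hvw (ofField K q v x) = ofField L q w (algebraMap K L x) := by
  rw [ofField_apply, ofField_apply, localFieldBaseMap_mk, locMap_tmul]

include G in
/-- At a prime `w` of `L` with trivial inertia over `v`, the `w`-adic valuation restricts to the
`v`-adic valuation on `Kˣ`. -/
theorem ordAt_map_algebraMap_of_inertia_eq_bot
    (hvw : LiesOverAlong (algebraMap (𝓞 K) (𝓞 L)) v w)
    (h : Ideal.inertia G w.1.asIdeal = ⊥) (x : Kˣ) :
    SUnits.ordAt w.1 (Units.map (algebraMap K L : K →* L) x) = SUnits.ordAt v.1 x := by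
  letI := localFieldAlgebra hvw
  letI := localIntAlgebra hvw
  letI := localIntFieldAlgebra hvw
  haveI := isScalarTower_localInt_localField_localField hvw
  haveI := isScalarTower_localInt_localInt_localField hvw
  have hu := isUnram_localInt_of_inertia_eq_bot (G := G) hvw h
  rw [← ord_ofField w, ← ord_ofField v]
  have key := Fermat.Agent.Lib.CFT.Local.LocalBrauer.ord_algebraMap_of_isUnram
    (localInt K q v) (localField K q v) (localField L q w) (localInt L q w) hu
    (Units.map (ofField K q v : K →* localField K q v) x)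
  rw [← key]
  congr 1

end Fermat.Agent.Lib.CFT.Global.LocalDict

namespace Fermat.Agent.Lib.CFT.Global.LocalDict

open Fermat.Agent.Lib.CFT.Global Fermat.Agent.Lib.CFT.Global.Places
open Fermat.Agent.Lib.CFT.Global.Places.Galois IsDedekindDomain IsLocalRing
open Fermat.Agent.Lib.CFT.Local (LocalInvTheory)
open Fermat.Agent.Lib.CFT.Local.LocalBrauer (QZ invUnr)
open Fermat.Agent.Lib.CFT.Local.UnitsFiltration (ord)
open Fermat.Agent.Lib.CFT.Global.LocalFieldAt Fermat.Agent.Lib.CFT.Global.ClassFormation
open Fermat.Agent.Lib.CFT.Global.ClassFormation.CycloSymbol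
open Fermat.Agent.Lib.CFT.Coh.CyclicExplicit
open EtaleAlg groupCohomology

attribute [local instance] Units.mulDistribMulActionRight

section Cyclic

variable {K L : Type} [Field K] [NumberField K] [Field L] [NumberField L] [Algebra K L]
  {q : Nat.Primes}
variable {G : Type} [Group G] [Fintype G] [MulSemiringAction G L] [IsGaloisGroup G K L]
  [FaithfulSMul G L]
variable {v : PrimesOver K q} {w : PrimesOver L q}

/-- **The local invariant of a cyclic symbol at an unramified prime.**  `G = ⟨s⟩` cyclic, `a` a
`G`-invariant element of `Lˣ`, `w` a prime of `L` with trivial inertia, `σ` an arithmetic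
Frobenius at `w`: the local invariant at `w` of the (idelic image of the) symbol `[carry s • a]`
is `dlog s σ * ord_w a / |G|`. -/
theorem locInv_symbol_unram (T : ∀ q : Nat.Primes, LocalInvTheory (pv q))
    (s : G) (hs : ∀ x, x ∈ Subgroup.zpowers s)
    (hvw : LiesOverAlong (algebraMap (𝓞 K) (𝓞 L)) v w)
    (h : Ideal.inertia G w.1.asIdeal = ⊥)
    (σ : G) (hσ : IsArithFrobAt (𝓞 K) σ w.1.asIdeal)
    (a : (unitsRep L G).ρ.invariants) :
    locInv T L G q (primesEquivMaximalSpectrum L q w)
      (groupCohomology.map (MonoidHom.id G) (principalRepHom L G) 2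
        (scalarClass (unitsRep L G) (isScalarCocycle_carry ℤ s hs) a)) =
    (((((dlog s hs σ : ℤ) * SUnits.ordAt w.1 (Additive.toMul (α := Lˣ) a.1) : ℤ) : ℚ) /
      (Fintype.card G : ℚ) : ℚ) : QZ) := by
  letI : Fintype (MulAction.stabilizer G (primesEquivMaximalSpectrum L q w)) := Fintype.ofFinite _
  have h1 := locInv_scalarClass_carry_of_invariants_of_cocycle_formula T L G s hs q
    (primesEquivMaximalSpectrum L q w) a
    ⟨σ, mem_stabilizer_primesEquiv_of_isArithFrobAt (K := K) σ hσ⟩
    (fun u => ord (localInt L q w) (localField L q w) u)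
    (fun u k => Fermat.Agent.Lib.CFT.Local.UnitsFiltration.ord_zpow (B := localInt L q w)
      (L := localField L q w) u k)
    (fun c => invAtPrime_unram T hvw h _ (sub_pow_mem_of_isArithFrobAt hvw σ hσ) c)
  rw [h1]
  have h2 : ord (localInt L q w) (localField L q w)
      (fieldAtUnit L q (primesEquivMaximalSpectrum L q w) (Additive.toMul (α := Lˣ) a.1)) =
      SUnits.ordAt w.1 (Additive.toMul (α := Lˣ) a.1) := ord_ofField w _
  rw [h2]

/-- The same formula for an invariant element coming from `x ∈ Kˣ`, with the valuation computed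
in `K`: the local invariant is `dlog s σ * ord_v x / |G|`. -/
theorem locInv_symbol_unram_base (T : ∀ q : Nat.Primes, LocalInvTheory (pv q))
    (s : G) (hs : ∀ x, x ∈ Subgroup.zpowers s)
    (hvw : LiesOverAlong (algebraMap (𝓞 K) (𝓞 L)) v w)
    (h : Ideal.inertia G w.1.asIdeal = ⊥)
    (σ : G) (hσ : IsArithFrobAt (𝓞 K) σ w.1.asIdeal)
    (a : (unitsRep L G).ρ.invariants) (x : Kˣ)
    (ha : Additive.toMul (α := Lˣ) a.1 = Units.map (algebraMap K L : K →* L) x) :
    locInv T L G q (primesEquivMaximalSpectrum L q w)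
      (groupCohomology.map (MonoidHom.id G) (principalRepHom L G) 2
        (scalarClass (unitsRep L G) (isScalarCocycle_carry ℤ s hs) a)) =
    (((((dlog s hs σ : ℤ) * SUnits.ordAt v.1 x : ℤ) : ℚ) / (Fintype.card G : ℚ) : ℚ) : QZ) := by
  rw [locInv_symbol_unram T s hs hvw h σ hσ a, ha,
    ordAt_map_algebraMap_of_inertia_eq_bot (G := G) hvw h x]

end Cyclic

end Fermat.Agent.Lib.CFT.Global.LocalDict
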